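/-
S53, package AT (helper94): basic facts on Artinian test algebras used by the abstract
representability theorem.  Everything lives in `Fermat.Agent.S53.AR`.
-/
import Mathlib
import Fermat.Prelude.Def_GaloisRep_DeformationCondition

set_option autoImplicit false
set_option linter.style.haveILetI false
set_option linter.unusedSectionVars false

namespace Fermat.Agent.S53.AR

open IsLocalRing GaloisRep

variable {O : Type} [CommRing O] [IsLocalRing O]

section TestAlgebra

variable {A : Type} [CommRing A] [IsLocalRing A] [Algebra O A]

/-- A test algebra over a local ring with finite residue field is a finite set. -/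
theorem finite_of_testAlgebra [Finite (ResidueField O)] (hA : IsArtinianTestAlgebra O A) :
    Finite A := by
  haveI := hA.isArtinian
  haveI := hA.isLocalHom
  haveI : Finite (ResidueField A) := by
    have hsurj : Function.Surjective (ResidueField.map (algebraMap O A)) := by
      intro y
      obtain ⟨a, rfl⟩ := IsLocalRing.residue_surjective y
      obtain ⟨o, ho⟩ := hA.residue_surjective (IsLocalRing.residue A a)
      exact ⟨IsLocalRing.residue O o, by rw [ResidueField.map_residue]; exact ho⟩
    exact Finite.of_surjective _ hsurj
  have h : Finite (A ⧸ (⊥ : Ideal A)) := by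
    rw [IsLocalRing.finite_quotient_iff]
    obtain ⟨n, hn⟩ := IsArtinianRing.isNilpotent_jacobson_bot (R := A)
    refine ⟨n, ?_⟩
    rw [IsLocalRing.jacobson_eq_maximalIdeal _ bot_ne_top] at hn
    exact hn.le
  exact Finite.of_equiv _ (RingEquiv.quotientBot A).toEquiv

/-- Some power of the maximal ideal of a test algebra vanishes. -/
theorem exists_maximalIdeal_pow_eq_bot (hA : IsArtinianTestAlgebra O A) :
    ∃ n, maximalIdeal A ^ n = ⊥ := by
  haveI := hA.isArtinian
  obtain ⟨n, hn⟩ := IsArtinianRing.isNilpotent_jacobson_bot (R := A)
  rw [IsLocalRing.jacobson_eq_maximalIdeal _ bot_ne_top] at hn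
  exact ⟨n, hn⟩

/-- Every element of a test algebra is congruent to an element of `O` modulo the maximal ideal. -/
theorem exists_sub_mem_maximalIdeal (hA : IsArtinianTestAlgebra O A) (a : A) :
    ∃ o : O, a - algebraMap O A o ∈ maximalIdeal A := by
  obtain ⟨o, ho⟩ := hA.residue_surjective (IsLocalRing.residue A a)
  refine ⟨o, ?_⟩
  rw [← IsLocalRing.residue_eq_zero_iff, map_sub, sub_eq_zero]
  exact ho.symm

/-- `algebraMap O A` maps the maximal ideal into the maximal ideal. -/
theorem algebraMap_mem_maximalIdeal (hA : IsArtinianTestAlgebra O A) {o : O}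
    (ho : o ∈ maximalIdeal O) : algebraMap O A o ∈ maximalIdeal A := by
  haveI := hA.isLocalHom
  intro h
  exact ho ((isUnit_map_iff (algebraMap O A) o).mp h)

theorem algebraMap_mem_maximalIdeal_iff (hA : IsArtinianTestAlgebra O A) {o : O} :
    algebraMap O A o ∈ maximalIdeal A ↔ o ∈ maximalIdeal O := by
  refine ⟨fun h ho => h ?_, algebraMap_mem_maximalIdeal hA⟩
  exact IsUnit.map (algebraMap O A) ho

end TestAlgebra

end Fermat.Agent.S53.AR
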