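/-
S53, package AT (helper94): the universal polynomial ring `Λ = O[X_i]`, its maximal ideal `𝔐`
attached to a `k`-point `x₀`, and quotients `Λ ⧸ K` with `𝔐 ^ n ≤ K ≤ 𝔐`.
-/
import Mathlib
import Fermat.Prelude.Def_GaloisRep_DeformationCondition
import Fermat.Agent.S53.AR.TestAlg

set_option autoImplicit false
set_option linter.style.haveILetI false
set_option linter.unusedSectionVars false

namespace Fermat.Agent.S53.AR

open IsLocalRing GaloisRep MvPolynomial

variable {O : Type} [CommRing O] [IsLocalRing O] {I : Type}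

/-- evaluation at a `k`-point. -/
noncomputable def ev0 (x₀ : I → ResidueField O) : MvPolynomial I O →ₐ[O] ResidueField O :=
  aeval x₀

theorem ev0_X (x₀ : I → ResidueField O) (i : I) : ev0 x₀ (X i) = x₀ i := by
  simp [ev0]

theorem ev0_surjective (x₀ : I → ResidueField O) : Function.Surjective (ev0 x₀) := by
  intro y
  obtain ⟨o, rfl⟩ := IsLocalRing.residue_surjective y
  refine ⟨C o, ?_⟩
  simp [ev0, IsLocalRing.ResidueField.algebraMap_eq]

/-- the maximal ideal of `Λ` at the point `x₀`. -/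
noncomputable def MM (x₀ : I → ResidueField O) : Ideal (MvPolynomial I O) :=
  RingHom.ker (ev0 x₀)

theorem mem_MM {x₀ : I → ResidueField O} {f : MvPolynomial I O} :
    f ∈ MM x₀ ↔ ev0 x₀ f = 0 := RingHom.mem_ker

instance MM_isMaximal (x₀ : I → ResidueField O) : (MM x₀).IsMaximal :=
  RingHom.ker_isMaximal_of_surjective (ev0 x₀) (ev0_surjective x₀)

/-- `K` is a level ideal: `𝔐 ^ n ≤ K ≤ 𝔐`. -/
def IsLevel (x₀ : I → ResidueField O) (K : Ideal (MvPolynomial I O)) (n : ℕ) : Prop :=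
  MM x₀ ^ n ≤ K ∧ K ≤ MM x₀

section Level

variable {x₀ : I → ResidueField O} {K : Ideal (MvPolynomial I O)} {n : ℕ}

theorem IsLevel.ne_top (hK : IsLevel x₀ K n) : K ≠ ⊤ := by
  intro h
  have : MM x₀ = ⊤ := top_le_iff.mp (h ▸ hK.2)
  exact (MM_isMaximal x₀).ne_top this

theorem isUnit_mk_of_notMem (hK : IsLevel x₀ K n) {f : MvPolynomial I O} (hf : f ∉ MM x₀) :
    IsUnit (Ideal.Quotient.mk K f) := by
  have h1 : Ideal.span {f} ⊔ MM x₀ = ⊤ := by
    apply (MM_isMaximal x₀).1.2
    refine lt_of_le_of_ne le_sup_right ?_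
    intro h
    apply hf
    have : Ideal.span {f} ≤ MM x₀ := by
      rw [h]; exact le_sup_left
    exact (Ideal.span_singleton_le_iff_mem _).mp this
  have h2 : Ideal.span {f} ⊔ MM x₀ ^ n = ⊤ := Ideal.sup_pow_eq_top h1
  have h3 : (1 : MvPolynomial I O) ∈ Ideal.span {f} ⊔ MM x₀ ^ n := by rw [h2]; trivial
  obtain ⟨a, ha, b, hb, hab⟩ := Submodule.mem_sup.mp h3
  obtain ⟨g, rfl⟩ := Ideal.mem_span_singleton'.mp ha
  refine IsUnit.of_mul_eq_one (Ideal.Quotient.mk K g) ?_
  have hbK : Ideal.Quotient.mk K b = 0 := Ideal.Quotient.eq_zero_iff_mem.mpr (hK.1 hb)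
  have := congrArg (Ideal.Quotient.mk K) hab
  rw [map_add, hbK, add_zero, map_mul, map_one] at this
  rw [mul_comm]
  exact this

theorem isLocalRing_quot (hK : IsLevel x₀ K n) : IsLocalRing (MvPolynomial I O ⧸ K) := by
  haveI : Nontrivial (MvPolynomial I O ⧸ K) := Ideal.Quotient.nontrivial_iff.mpr hK.ne_top
  refine IsLocalRing.of_isUnit_or_isUnit_one_sub_self ?_
  intro a
  obtain ⟨f, rfl⟩ := Ideal.Quotient.mk_surjective a
  by_cases hf : f ∈ MM x₀
  · right
    have : (1 : MvPolynomial I O) - f ∉ MM x₀ := by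
      intro h
      have h1 : (1 : MvPolynomial I O) ∈ MM x₀ := by
        have := (MM x₀).add_mem h hf
        simpa using this
      exact (MM_isMaximal x₀).ne_top ((Ideal.eq_top_iff_one _).mpr h1)
    have := isUnit_mk_of_notMem hK this
    simpa using this
  · left
    exact isUnit_mk_of_notMem hK hf

/-- the augmentation `Λ ⧸ K → k`. -/
noncomputable def aug (x₀ : I → ResidueField O) (K : Ideal (MvPolynomial I O)) (hK : K ≤ MM x₀) :
    (MvPolynomial I O ⧸ K) →ₐ[O] ResidueField O :=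
  Ideal.Quotient.liftₐ K (ev0 x₀) (fun a ha => mem_MM.mp (hK ha))

theorem aug_mk (hK : K ≤ MM x₀) (f : MvPolynomial I O) :
    aug x₀ K hK (Ideal.Quotient.mk K f) = ev0 x₀ f := rfl

theorem aug_eq_zero_iff (hK : IsLevel x₀ K n) [IsLocalRing (MvPolynomial I O ⧸ K)]
    (q : MvPolynomial I O ⧸ K) :
    aug x₀ K hK.2 q = 0 ↔ q ∈ maximalIdeal (MvPolynomial I O ⧸ K) := by
  obtain ⟨f, rfl⟩ := Ideal.Quotient.mk_surjective q
  rw [aug_mk, ← mem_MM]
  constructor
  · intro hf hu
    have hnil : (Ideal.Quotient.mk K f) ^ n = 0 := by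
      rw [← map_pow, Ideal.Quotient.eq_zero_iff_mem]
      exact hK.1 (Ideal.pow_mem_pow hf n)
    have : IsUnit ((Ideal.Quotient.mk K f) ^ n) := hu.pow n
    rw [hnil] at this
    exact not_isUnit_zero this
  · intro hq
    by_contra hf
    exact hq (isUnit_mk_of_notMem hK hf)

theorem maximalIdeal_pow_eq_bot (hK : IsLevel x₀ K n) [IsLocalRing (MvPolynomial I O ⧸ K)] :
    maximalIdeal (MvPolynomial I O ⧸ K) ^ n = ⊥ := by
  have hmax : maximalIdeal (MvPolynomial I O ⧸ K) = (MM x₀).map (Ideal.Quotient.mk K) := by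
    ext q
    rw [← aug_eq_zero_iff hK]
    obtain ⟨f, rfl⟩ := Ideal.Quotient.mk_surjective q
    rw [aug_mk, ← mem_MM]
    constructor
    · intro hf
      exact Ideal.mem_map_of_mem _ hf
    · intro hq
      rw [Ideal.mem_map_iff_of_surjective _ Ideal.Quotient.mk_surjective] at hq
      obtain ⟨g, hg, hgf⟩ := hq
      have : g - f ∈ K := Ideal.Quotient.eq.mp hgf
      have h2 : g - f ∈ MM x₀ := hK.2 this
      have : f = g - (g - f) := by ring
      rw [this]
      exact (MM x₀).sub_mem hg h2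
  rw [hmax, ← Ideal.map_pow, eq_bot_iff]
  intro q hq
  rw [Ideal.mem_map_iff_of_surjective _ Ideal.Quotient.mk_surjective] at hq
  obtain ⟨g, hg, rfl⟩ := hq
  rw [Ideal.mem_bot, Ideal.Quotient.eq_zero_iff_mem]
  exact hK.1 hg

/-- A finite level quotient is a test algebra. -/
theorem isArtinianTestAlgebra_quot (hK : IsLevel x₀ K n) [IsLocalRing (MvPolynomial I O ⧸ K)]
    [Finite (MvPolynomial I O ⧸ K)] : IsArtinianTestAlgebra O (MvPolynomial I O ⧸ K) := by
  refine ⟨⟨?_⟩, ?_, inferInstance⟩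
  · intro o ho
    have h1 : IsUnit (aug x₀ K hK.2 (algebraMap O _ o)) := ho.map _
    rw [AlgHom.commutes, IsLocalRing.ResidueField.algebraMap_eq] at h1
    by_contra h
    rw [(IsLocalRing.residue_eq_zero_iff o).mpr h] at h1
    exact not_isUnit_zero h1
  · intro y
    obtain ⟨q, rfl⟩ := IsLocalRing.residue_surjective y
    obtain ⟨o, ho⟩ := IsLocalRing.residue_surjective (aug x₀ K hK.2 q)
    refine ⟨o, ?_⟩
    rw [Function.comp_apply, ← sub_eq_zero, ← map_sub, IsLocalRing.residue_eq_zero_iff,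
      ← aug_eq_zero_iff hK, map_sub, AlgHom.commutes, IsLocalRing.ResidueField.algebraMap_eq, ho,
      sub_self]

end Level

/-- the residue field is a test algebra. -/
theorem isArtinianTestAlgebra_residueField :
    IsArtinianTestAlgebra O (ResidueField O) := by
  refine ⟨?_, ?_, inferInstance⟩
  · rw [IsLocalRing.ResidueField.algebraMap_eq]
    infer_instance
  · intro y
    obtain ⟨q, rfl⟩ := IsLocalRing.residue_surjective y
    obtain ⟨o, rfl⟩ := IsLocalRing.residue_surjective q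
    exact ⟨o, rfl⟩

end Fermat.Agent.S53.AR
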