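/-
S53, package AT (helper94): tangent-space lemmas.
* `subalgebra_eq_top_of_sq`: Nakayama for subalgebras of a ring with nilpotent ideal.
* `exists_algHom_dualNumber_ne`: a proper subalgebra `B` of a test algebra `A` is not
  "tangentially dense": there are two different `O`-algebra maps `A → k[ε]` agreeing on `B`.
-/
import Mathlib
import Fermat.Prelude.Def_GaloisRep_DeformationCondition
import Fermat.Agent.S53.AR.TestAlg

set_option autoImplicit false
set_option linter.style.haveILetI false
set_option linter.unusedSectionVars false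

namespace Fermat.Agent.S53.AR

open IsLocalRing GaloisRep

section Nakayama

variable {O : Type} [CommRing O] {A : Type} [CommRing A] [Algebra O A]

/-- Nakayama for subalgebras: if `𝔪` is a nilpotent ideal and `B + 𝔪² = A`, then `B = A`. -/
theorem subalgebra_eq_top_of_sq (𝔪 : Ideal A) {N : ℕ} (hN : 𝔪 ^ N = ⊥) (B : Subalgebra O A)
    (h2 : ∀ a : A, ∃ b ∈ B, a - b ∈ 𝔪 ^ 2) : B = ⊤ := by
  -- `P j`: every element is congruent to an element of `B` modulo `𝔪 ^ (j+2)`
  have key : ∀ j : ℕ, ∀ a : A, ∃ b ∈ B, a - b ∈ 𝔪 ^ (j + 2) := by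
    intro j
    induction j with
    | zero => simpa using h2
    | succ j ih =>
      -- first: every element of `𝔪 ^ (j+2)` is congruent to an element of `B` mod `𝔪 ^ (j+3)`
      have step : ∀ y ∈ 𝔪 ^ (j + 2), ∃ b ∈ B, y - b ∈ 𝔪 ^ (j + 3) := by
        intro y hy
        have hy' : y ∈ 𝔪 * 𝔪 ^ (j + 1) := by
          rwa [← pow_succ']
        refine Submodule.mul_induction_on hy' ?_ ?_
        · intro u hu v hv
          obtain ⟨bu, hbu, hnu⟩ := h2 u
          obtain ⟨c, hc, hw⟩ := ih v
          have hbu_mem : bu ∈ 𝔪 := by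
            have h1 : u - bu ∈ 𝔪 := Ideal.pow_le_self (by norm_num) hnu
            have : bu = u - (u - bu) := by ring
            rw [this]
            exact 𝔪.sub_mem hu h1
          refine ⟨bu * c, B.mul_mem hbu hc, ?_⟩
          have e : u * v - bu * c = bu * (v - c) + (u - bu) * v := by ring
          rw [e]
          refine Ideal.add_mem _ ?_ ?_
          · have : bu * (v - c) ∈ 𝔪 * 𝔪 ^ (j + 2) := Ideal.mul_mem_mul hbu_mem hw
            rwa [← pow_succ'] at this
          · have : (u - bu) * v ∈ 𝔪 ^ 2 * 𝔪 ^ (j + 1) := Ideal.mul_mem_mul hnu hv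
            rwa [← pow_add, show 2 + (j + 1) = j + 3 by ring] at this
        · intro y₁ y₂ ⟨b₁, hb₁, h₁⟩ ⟨b₂, hb₂, h₂⟩
          refine ⟨b₁ + b₂, B.add_mem hb₁ hb₂, ?_⟩
          have e : y₁ + y₂ - (b₁ + b₂) = (y₁ - b₁) + (y₂ - b₂) := by ring
          rw [e]
          exact Ideal.add_mem _ h₁ h₂
      intro a
      obtain ⟨b, hb, hab⟩ := ih a
      obtain ⟨b', hb', hab'⟩ := step _ hab
      refine ⟨b + b', B.add_mem hb hb', ?_⟩
      have e : a - (b + b') = (a - b) - b' := by ring
      rw [e]
      exact hab'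
  rw [eq_top_iff]
  intro a _
  obtain ⟨b, hb, hab⟩ := key N a
  have : a - b ∈ 𝔪 ^ N := Ideal.pow_le_pow_right (by omega) hab
  rw [hN, Ideal.mem_bot, sub_eq_zero] at this
  rw [this]
  exact hb

end Nakayama

section Functional

variable {O : Type} [CommRing O] [IsLocalRing O] {A : Type} [AddCommGroup A] [Module O A]

/-- A proper submodule of a finite module over a local ring is killed by a nonzero linear
functional to the residue field (seen as `O ⧸ maximalIdeal O`). -/
theorem exists_linearMap_quot_ne_zero [Module.Finite O A] (S : Submodule O A) (hS : S ≠ ⊤) :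
    ∃ D : A →ₗ[O] (O ⧸ maximalIdeal O), Function.Surjective D ∧ S ≤ LinearMap.ker D := by
  obtain h | ⟨S', hS', hle⟩ := IsCoatomic.eq_top_or_exists_le_coatom S
  · exact absurd h hS
  have hsimple : IsSimpleModule O (A ⧸ S') := isSimpleModule_iff_isCoatom.mpr hS'
  obtain ⟨I, hI, ⟨e⟩⟩ := isSimpleModule_iff_quot_maximal.mp hsimple
  have hI' : I = maximalIdeal O := IsLocalRing.eq_maximalIdeal hI
  subst hI'
  refine ⟨e.toLinearMap.comp S'.mkQ, ?_, ?_⟩
  · exact e.surjective.comp (Submodule.mkQ_surjective S')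
  · intro s hs
    rw [LinearMap.mem_ker, LinearMap.comp_apply]
    have : S'.mkQ s = 0 := by
      rw [Submodule.mkQ_apply, Submodule.Quotient.mk_eq_zero]
      exact hle hs
    rw [this, map_zero]

end Functional

section DualNumber

variable (O : Type) [CommRing O] [IsLocalRing O]

/-- The `O`-algebra structure on `k[ε]` used in `GaloisRep.TangentFinite`. -/
@[reducible] noncomputable def dualAlgebra : Algebra O (DualNumber (ResidueField O)) :=
  ((algebraMap (ResidueField O) (DualNumber (ResidueField O))).comp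
      (algebraMap O (ResidueField O))).toAlgebra

theorem dualAlgebra_algebraMap (o : O) :
    letI := dualAlgebra O
    algebraMap O (DualNumber (ResidueField O)) o = TrivSqZeroExt.inl (IsLocalRing.residue O o) :=
  rfl

/-- `k[ε]` is a test algebra. -/
theorem isArtinianTestAlgebra_dualNumber [Finite (ResidueField O)] :
    letI := dualAlgebra O
    IsArtinianTestAlgebra O (DualNumber (ResidueField O)) := by
  letI := dualAlgebra O
  refine ⟨⟨?_⟩, ?_, ?_⟩
  · intro o ho
    rw [dualAlgebra_algebraMap, TrivSqZeroExt.isUnit_iff_isUnit_fst, TrivSqZeroExt.fst_inl] at ho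
    by_contra h
    have : IsLocalRing.residue O o = 0 := (IsLocalRing.residue_eq_zero_iff o).mpr h
    rw [this] at ho
    exact not_isUnit_zero ho
  · intro y
    obtain ⟨a, rfl⟩ := IsLocalRing.residue_surjective y
    obtain ⟨o, ho⟩ := IsLocalRing.residue_surjective (R := O) a.fst
    refine ⟨o, ?_⟩
    rw [Function.comp_apply, ← sub_eq_zero, ← map_sub, IsLocalRing.residue_eq_zero_iff,
      dualAlgebra_algebraMap]
    intro hu
    rw [TrivSqZeroExt.isUnit_iff_isUnit_fst, TrivSqZeroExt.fst_sub, TrivSqZeroExt.fst_inl, ho,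
      sub_self] at hu
    exact not_isUnit_zero hu
  · haveI : Finite (DualNumber (ResidueField O)) :=
      inferInstanceAs (Finite (ResidueField O × ResidueField O))
    infer_instance

end DualNumber

section KeyLemma

variable {O : Type} [CommRing O] [IsLocalRing O] [Finite (ResidueField O)]
  {A : Type} [CommRing A] [IsLocalRing A] [Algebra O A]

/-- A proper subalgebra of a test algebra is killed by a nonzero "derivation" to the residue
field. -/
theorem exists_derivation_of_ne_top (hA : IsArtinianTestAlgebra O A) (B : Subalgebra O A)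
    (hB : B ≠ ⊤) :
    ∃ δ : A → ResidueField O, (∀ a a', δ (a + a') = δ a + δ a') ∧
      (∀ (o : O) (a : A), δ (o • a) = IsLocalRing.residue O o * δ a) ∧
      (∀ b ∈ B, δ b = 0) ∧ (∀ n ∈ maximalIdeal A ^ 2, δ n = 0) ∧ ∃ a, δ a ≠ 0 := by
  classical
  haveI : Finite A := finite_of_testAlgebra hA
  haveI : Module.Finite O A := Module.Finite.of_finite
  set S : Submodule O A :=
    Subalgebra.toSubmodule B ⊔ ((maximalIdeal A ^ 2 : Ideal A).restrictScalars O) with hS
  have hSne : S ≠ ⊤ := by
    intro htop
    apply hB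
    obtain ⟨N, hN⟩ := exists_maximalIdeal_pow_eq_bot hA
    refine subalgebra_eq_top_of_sq (maximalIdeal A) hN B ?_
    intro a
    have ha : a ∈ S := by rw [htop]; exact Submodule.mem_top
    obtain ⟨b, hb, n, hn, rfl⟩ := Submodule.mem_sup.mp ha
    refine ⟨b, hb, ?_⟩
    have : b + n - b = n := by ring
    rw [this]
    exact hn
  obtain ⟨D, hDsurj, hDker⟩ := exists_linearMap_quot_ne_zero S hSne
  refine ⟨fun a => D a, ?_, ?_, ?_, ?_, ?_⟩
  · intro a a'
    exact map_add D a a'
  · intro o a
    show D (o • a) = Ideal.Quotient.mk (maximalIdeal O) o * D a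
    rw [map_smul]
    obtain ⟨x, hx⟩ := Ideal.Quotient.mk_surjective (D a)
    rw [← hx]
    rfl
  · intro b hb
    have hbS : b ∈ S := Submodule.mem_sup_left hb
    have h0 : D b = 0 := LinearMap.mem_ker.mp (hDker hbS)
    exact h0
  · intro n hn
    have hnS : n ∈ S := Submodule.mem_sup_right hn
    have h0 : D n = 0 := LinearMap.mem_ker.mp (hDker hnS)
    exact h0
  · obtain ⟨a, ha⟩ := hDsurj (1 : O ⧸ maximalIdeal O)
    refine ⟨a, ?_⟩
    show D a ≠ 0
    rw [ha]
    exact one_ne_zero

/-- From an augmentation `ε` and an `ε`-derivation `δ` build the algebra map `ε + δ·ε` to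
`k[ε]`. -/
noncomputable def homOfDeriv (ε : A →ₐ[O] ResidueField O) (δ : A → ResidueField O)
    (hadd : ∀ a a', δ (a + a') = δ a + δ a')
    (hmul : ∀ a a', δ (a * a') = ε a * δ a' + ε a' * δ a)
    (halg : ∀ o : O, δ (algebraMap O A o) = 0) :
    letI := dualAlgebra O
    A →ₐ[O] DualNumber (ResidueField O) :=
  letI := dualAlgebra O
  { toFun := fun a => TrivSqZeroExt.inl (ε a) + TrivSqZeroExt.inr (δ a)
    map_one' := by
      have h1 : δ 1 = 0 := by simpa using halg 1
      rw [h1, map_one]
      simp
    map_mul' := by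
      intro a a'
      apply TrivSqZeroExt.ext
      · simp
      · simp [hmul a a', mul_comm]
    map_zero' := by
      have h0 : δ 0 = 0 := by simpa using halg 0
      rw [h0, map_zero]
      simp
    map_add' := by
      intro a a'
      rw [hadd, map_add]
      apply TrivSqZeroExt.ext <;> simp
    commutes' := by
      intro o
      rw [halg, AlgHom.commutes, dualAlgebra_algebraMap]
      simp [IsLocalRing.ResidueField.algebraMap_eq] }

theorem homOfDeriv_apply (ε : A →ₐ[O] ResidueField O) (δ : A → ResidueField O)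
    (hadd : ∀ a a', δ (a + a') = δ a + δ a')
    (hmul : ∀ a a', δ (a * a') = ε a * δ a' + ε a' * δ a)
    (halg : ∀ o : O, δ (algebraMap O A o) = 0) (a : A) :
    homOfDeriv ε δ hadd hmul halg a = TrivSqZeroExt.inl (ε a) + TrivSqZeroExt.inr (δ a) :=
  rfl

/-- **Key lemma**: a proper subalgebra `B` of a test algebra `A` (with augmentation `ε`) admits
two different algebra maps `A → k[ε]` that agree on `B`. -/
theorem exists_algHom_dualNumber_ne (hA : IsArtinianTestAlgebra O A)
    (ε : A →ₐ[O] ResidueField O) (hε : ∀ a, ε a = 0 ↔ a ∈ maximalIdeal A)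
    (B : Subalgebra O A) (hB : B ≠ ⊤) :
    letI := dualAlgebra O
    ∃ ψ₁ ψ₂ : A →ₐ[O] DualNumber (ResidueField O), ψ₁ ≠ ψ₂ ∧ ∀ b ∈ B, ψ₁ b = ψ₂ b := by
  letI := dualAlgebra O
  obtain ⟨δ, hadd, hsmul, hδB, hδsq, a₀, ha₀⟩ := exists_derivation_of_ne_top hA B hB
  have halg : ∀ o : O, δ (algebraMap O A o) = 0 := fun o => hδB _ (B.algebraMap_mem o)
  have hεalg : ∀ o : O, ε (algebraMap O A o) = IsLocalRing.residue O o := by
    intro o
    rw [AlgHom.commutes, IsLocalRing.ResidueField.algebraMap_eq]
  have hmul : ∀ a a', δ (a * a') = ε a * δ a' + ε a' * δ a := by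
    intro a a'
    obtain ⟨o, ho⟩ := exists_sub_mem_maximalIdeal hA a
    obtain ⟨o', ho'⟩ := exists_sub_mem_maximalIdeal hA a'
    set m := a - algebraMap O A o with hm
    set m' := a' - algebraMap O A o' with hm'
    have ea : a = algebraMap O A o + m := by rw [hm]; ring
    have ea' : a' = algebraMap O A o' + m' := by rw [hm']; ring
    have hεm : ε m = 0 := (hε m).mpr ho
    have hεm' : ε m' = 0 := (hε m').mpr ho'
    have hεa : ε a = IsLocalRing.residue O o := by rw [ea, map_add, hεalg, hεm, add_zero]
    have hεa' : ε a' = IsLocalRing.residue O o' := by rw [ea', map_add, hεalg, hεm', add_zero]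
    have hδa : δ a = δ m := by rw [ea, hadd, halg, zero_add]
    have hδa' : δ a' = δ m' := by rw [ea', hadd, halg, zero_add]
    have hmm : δ (m * m') = 0 := by
      apply hδsq
      rw [pow_two]
      exact Ideal.mul_mem_mul ho ho'
    have eprod : a * a' = algebraMap O A (o * o') + (o • m' + (o' • m + m * m')) := by
      rw [ea, ea', map_mul, Algebra.smul_def, Algebra.smul_def]
      ring
    rw [eprod, hadd, halg, zero_add, hadd, hadd, hsmul, hsmul, hmm, add_zero, hεa, hεa', hδa, hδa']
  have h0add : ∀ a a' : A, (fun _ : A => (0 : ResidueField O)) (a + a') =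
      (fun _ : A => (0 : ResidueField O)) a + (fun _ : A => (0 : ResidueField O)) a' := by
    intro a a'; simp
  refine ⟨homOfDeriv ε δ hadd hmul halg,
    homOfDeriv ε (fun _ => 0) h0add (by intro a a'; simp) (by intro o; rfl), ?_, ?_⟩
  · intro heq
    have h := congrArg (fun ψ => (ψ a₀).snd) heq
    simp only [homOfDeriv_apply] at h
    apply ha₀
    simpa using h
  · intro b hb
    rw [homOfDeriv_apply, homOfDeriv_apply, hδB b hb]

end KeyLemma

end Fermat.Agent.S53.AR
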