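/-
S53, package AT (helper94): axioms for a "closed subfunctor of affine space" `F` and the lattice
of good ideals of `Λ = O[X_i]`.
-/
import Mathlib
import Fermat.Prelude.Def_GaloisRep_DeformationCondition
import Fermat.Agent.S53.AR.TestAlg
import Fermat.Agent.S53.AR.Tangent
import Fermat.Agent.S53.AR.Level

set_option autoImplicit false
set_option linter.style.haveILetI false
set_option linter.unusedSectionVars false
set_option linter.unusedVariables false

namespace Fermat.Agent.S53.AR

open IsLocalRing GaloisRep MvPolynomial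

/-- predicates on `I`-indexed families of elements of local `O`-algebras. -/
abbrev FamPred (O : Type) [CommRing O] (I : Type) : Type 1 :=
  ∀ (A : Type) [CommRing A] [IsLocalRing A] [Algebra O A], (I → A) → Prop

/-- The axioms of the abstract representability theorem. -/
structure Axioms (O : Type) [CommRing O] [IsLocalRing O] (I : Type) (F : FamPred O I) : Prop where
  map : ∀ {A B : Type} [CommRing A] [IsLocalRing A] [Algebra O A]
    [CommRing B] [IsLocalRing B] [Algebra O B],
    IsArtinianTestAlgebra O A → IsArtinianTestAlgebra O B →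
    ∀ (φ : A →ₐ[O] B) (x : I → A), F A x → F B (fun i => φ (x i))
  descent : ∀ {A B : Type} [CommRing A] [IsLocalRing A] [Algebra O A]
    [CommRing B] [IsLocalRing B] [Algebra O B],
    IsArtinianTestAlgebra O A → IsArtinianTestAlgebra O B →
    ∀ (φ : A →ₐ[O] B), Function.Injective φ →
    ∀ (x : I → A), F B (fun i => φ (x i)) → F A x
  glue : ∀ {A B C P : Type} [CommRing A] [IsLocalRing A] [Algebra O A]
    [CommRing B] [IsLocalRing B] [Algebra O B] [CommRing C] [IsLocalRing C] [Algebra O C]
    [CommRing P] [IsLocalRing P] [Algebra O P],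
    IsArtinianTestAlgebra O A → IsArtinianTestAlgebra O B → IsArtinianTestAlgebra O C →
    IsArtinianTestAlgebra O P →
    ∀ (f : A →ₐ[O] C) (g : B →ₐ[O] C) (pA : P →ₐ[O] A) (pB : P →ₐ[O] B),
      f.comp pA = g.comp pB →
      Function.Injective (fun x => (pA x, pB x)) →
      (∀ a b, f a = g b → ∃ x, pA x = a ∧ pB x = b) →
      ∀ (x : I → P), F A (fun i => pA (x i)) → F B (fun i => pB (x i)) → F P x
  base_exists : ∃ x : I → ResidueField O, F (ResidueField O) x
  base_unique : ∀ x y : I → ResidueField O,
    F (ResidueField O) x → F (ResidueField O) y → x = y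
  tangent_finite :
    letI := dualAlgebra O
    Finite {x : I → DualNumber (ResidueField O) // F (DualNumber (ResidueField O)) x}

variable {O : Type} [CommRing O] [IsLocalRing O] {I : Type} {F : FamPred O I}

/-- the base point. -/
noncomputable def Axioms.x₀ (ax : Axioms O I F) : I → ResidueField O := ax.base_exists.choose

theorem Axioms.F_x₀ (ax : Axioms O I F) : F (ResidueField O) ax.x₀ := ax.base_exists.choose_spec

/-- the universal family in `Λ ⧸ K`. -/
noncomputable def famX (K : Ideal (MvPolynomial I O)) : I → MvPolynomial I O ⧸ K :=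
  fun i => Ideal.Quotient.mk K (X i)

/-- `K` is good of level `n`: `Λ ⧸ K` is a finite quotient with `𝔐 ^ n ≤ K ≤ 𝔐` on which the
universal family satisfies `F`. -/
structure Good (ax : Axioms O I F) (K : Ideal (MvPolynomial I O)) (n : ℕ) : Prop where
  level : IsLevel ax.x₀ K n
  finite : Finite (MvPolynomial I O ⧸ K)
  mem : ∀ [IsLocalRing (MvPolynomial I O ⧸ K)], F (MvPolynomial I O ⧸ K) (famX K)

variable (ax : Axioms O I F)

theorem Good.mono_level {K : Ideal (MvPolynomial I O)} {n m : ℕ} (h : Good ax K n) (hnm : n ≤ m) :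
    Good ax K m :=
  ⟨⟨(Ideal.pow_le_pow_right hnm).trans h.level.1, h.level.2⟩, h.finite, h.mem⟩

/-- good ideals are upward closed (below `𝔐`). -/
theorem Good.mono {K K' : Ideal (MvPolynomial I O)} {n : ℕ} (h : Good ax K n) (hKK' : K ≤ K')
    (hK' : K' ≤ MM ax.x₀) : Good ax K' n := by
  have hlev : IsLevel ax.x₀ K' n := ⟨h.level.1.trans hKK', hK'⟩
  haveI := h.finite
  haveI : Finite (MvPolynomial I O ⧸ K') :=
    Finite.of_surjective _ (Ideal.Quotient.factor_surjective hKK')
  refine ⟨hlev, inferInstance, ?_⟩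
  intro _
  haveI := isLocalRing_quot h.level
  have hA := isArtinianTestAlgebra_quot h.level
  have hB := isArtinianTestAlgebra_quot hlev
  have := ax.map hA hB (Ideal.Quotient.factorₐ O hKK') (famX K) h.mem
  exact this

/-- the kernel of the evaluation at a point of `F A` is good. -/
theorem good_ker [Finite (ResidueField O)] {A : Type} [CommRing A] [IsLocalRing A] [Algebra O A]
    (hA : IsArtinianTestAlgebra O A) (ε : A →ₐ[O] ResidueField O)
    (hε : ∀ a, ε a = 0 ↔ a ∈ maximalIdeal A) {n : ℕ} (hn : maximalIdeal A ^ n = ⊥)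
    (x : I → A) (hx : F A x) : Good ax (RingHom.ker (aeval x : MvPolynomial I O →ₐ[O] A)) n := by
  set φ : MvPolynomial I O →ₐ[O] A := aeval x with hφ
  -- `ε ∘ φ = ev0 x₀`
  have hεφ : ε.comp φ = ev0 ax.x₀ := by
    have h1 : F (ResidueField O) (fun i => ε (x i)) :=
      ax.map hA isArtinianTestAlgebra_residueField ε x hx
    have h2 : (fun i => ε (x i)) = ax.x₀ := ax.base_unique _ _ h1 ax.F_x₀
    apply MvPolynomial.algHom_ext
    intro i
    rw [AlgHom.comp_apply, hφ, aeval_X, ev0_X]
    exact congrFun h2 i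
  have hεφ' : ∀ f, ε (φ f) = ev0 ax.x₀ f := fun f => by rw [← hεφ]; rfl
  have hlev : IsLevel ax.x₀ (RingHom.ker φ) n := by
    constructor
    · -- `φ (𝔐 ^ n) ⊆ 𝔪_A ^ n = 0`
      have h1 : (MM ax.x₀).map φ ≤ maximalIdeal A := by
        rw [Ideal.map_le_iff_le_comap]
        intro f hf
        rw [Ideal.mem_comap, ← hε, hεφ']
        exact mem_MM.mp hf
      intro f hf
      rw [RingHom.mem_ker]
      have h2 : φ f ∈ ((MM ax.x₀).map φ) ^ n := by
        rw [← Ideal.map_pow]
        exact Ideal.mem_map_of_mem _ hf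
      have h3 : φ f ∈ maximalIdeal A ^ n := Ideal.pow_right_mono h1 n h2
      rw [hn] at h3
      exact h3
    · intro f hf
      rw [mem_MM, ← hεφ', RingHom.mem_ker.mp hf, map_zero]
  haveI : Finite A := finite_of_testAlgebra hA
  have hinj : Function.Injective (Ideal.kerLiftAlg φ) := Ideal.kerLiftAlg_injective φ
  haveI : Finite (MvPolynomial I O ⧸ RingHom.ker φ) := Finite.of_injective _ hinj
  refine ⟨hlev, inferInstance, ?_⟩
  intro _
  have hQ := isArtinianTestAlgebra_quot hlev
  refine ax.descent hQ hA (Ideal.kerLiftAlg φ) hinj _ ?_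
  have : (fun i => Ideal.kerLiftAlg φ (famX (RingHom.ker φ) i)) = x := by
    funext i
    show Ideal.kerLiftAlg φ (Ideal.Quotient.mk _ (X i)) = x i
    rw [Ideal.kerLiftAlg_mk, hφ, aeval_X]
  rw [this]
  exact hx

end Fermat.Agent.S53.AR
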