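/-
S53, package AT (helper94): the uniform cardinality bound for good quotients.
-/
import Mathlib
import Fermat.Prelude.Def_GaloisRep_DeformationCondition
import Fermat.Agent.S53.AR.Good

set_option autoImplicit false
set_option linter.style.haveILetI false
set_option linter.unusedSectionVars false
set_option linter.unusedVariables false

namespace Fermat.Agent.S53.AR

open IsLocalRing GaloisRep MvPolynomial

/-- finitely many functions are separated by finitely many coordinates. -/
theorem exists_finite_separating {I D : Type} (T : Set (I → D)) (hT : T.Finite) :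
    ∃ J : Set I, J.Finite ∧ ∀ t ∈ T, ∀ t' ∈ T, (∀ j ∈ J, t j = t' j) → t = t' := by
  classical
  let P := {p : (I → D) × (I → D) // p.1 ∈ T ∧ p.2 ∈ T ∧ p.1 ≠ p.2}
  haveI : Finite ↥(T ×ˢ T) := (hT.prod hT).to_subtype
  haveI : Finite P :=
    Finite.of_injective (fun p : P => (⟨p.1, ⟨p.2.1, p.2.2.1⟩⟩ : ↥(T ×ˢ T)))
      (by intro p q h; have := congrArg (fun z : ↥(T ×ˢ T) => z.1) h; exact Subtype.ext this)
  let idx : P → I := fun p => (Function.ne_iff.mp p.2.2.2).choose
  refine ⟨Set.range idx, Set.finite_range idx, ?_⟩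
  intro t ht t' ht' h
  by_contra hne
  have hspec := (Function.ne_iff.mp (show (t, t').1 ≠ (t, t').2 from hne)).choose_spec
  exact hspec (h _ ⟨⟨(t, t'), ht, ht', hne⟩, rfl⟩)

variable {O : Type} [CommRing O] [IsLocalRing O] {I : Type} {F : FamPred O I}

/-- finitely many coordinates separate the tangent vectors. -/
theorem exists_separating (ax : Axioms O I F) :
    ∃ J : Set I, J.Finite ∧
      letI := dualAlgebra O
      ∀ t t' : I → DualNumber (ResidueField O), F (DualNumber (ResidueField O)) t →
        F (DualNumber (ResidueField O)) t' → (∀ j ∈ J, t j = t' j) → t = t' := by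
  letI := dualAlgebra O
  have hfin : Set.Finite {x : I → DualNumber (ResidueField O) |
      F (DualNumber (ResidueField O)) x} := by
    have h1 : Finite {x : I → DualNumber (ResidueField O) // F (DualNumber (ResidueField O)) x} :=
      ax.tangent_finite
    exact Set.finite_coe_iff.mp h1
  obtain ⟨J, hJ, hsep⟩ := exists_finite_separating _ hfin
  exact ⟨J, hJ, fun t t' ht ht' h => hsep t ht t' ht' h⟩

variable (ax : Axioms O I F) [Finite (ResidueField O)]

/-- the coordinates in a separating set generate every good quotient. -/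
theorem adjoin_eq_top {J : Set I}
    (hsep : letI := dualAlgebra O
      ∀ t t' : I → DualNumber (ResidueField O), F (DualNumber (ResidueField O)) t →
        F (DualNumber (ResidueField O)) t' → (∀ j ∈ J, t j = t' j) → t = t')
    {K : Ideal (MvPolynomial I O)} {n : ℕ} (h : Good ax K n) :
    Algebra.adjoin O ((famX K) '' J) = ⊤ := by
  letI := dualAlgebra O
  haveI := isLocalRing_quot h.level
  haveI := h.finite
  have hA := isArtinianTestAlgebra_quot h.level
  by_contra hne
  obtain ⟨ψ₁, ψ₂, hψ, hB⟩ := exists_algHom_dualNumber_ne hA (aug ax.x₀ K h.level.2)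
    (aug_eq_zero_iff h.level) _ hne
  apply hψ
  have hD := isArtinianTestAlgebra_dualNumber O
  have h1 := ax.map hA hD ψ₁ (famX K) h.mem
  have h2 := ax.map hA hD ψ₂ (famX K) h.mem
  have h12 := hsep _ _ h1 h2 (fun j hj => hB _ (Algebra.subset_adjoin ⟨j, hj, rfl⟩))
  apply Ideal.Quotient.algHom_ext
  apply MvPolynomial.algHom_ext
  intro i
  exact congrFun h12 i

/-- the uniform bound on the cardinality of good quotients of level `n`. -/
theorem exists_card_bound [IsNoetherianRing O] (n : ℕ) :
    ∃ C : ℕ, ∀ K : Ideal (MvPolynomial I O), Good ax K n →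
      Nat.card (MvPolynomial I O ⧸ K) ≤ C := by
  obtain ⟨J, hJ, hsep⟩ := exists_separating ax
  haveI : Finite ↥J := hJ.to_subtype
  set y₀ : ↥J → ResidueField O := fun j => ax.x₀ j with hy₀
  -- the quotient `O[X_j : j ∈ J] / 𝔫 ^ n` is finite
  haveI : Finite (MvPolynomial ↥J O ⧸ MM y₀) := by
    show Finite (MvPolynomial ↥J O ⧸ RingHom.ker (ev0 y₀))
    exact Finite.of_injective _ (Ideal.kerLiftAlg_injective (ev0 y₀))
  haveI : Finite (MvPolynomial ↥J O ⧸ MM y₀ ^ n) :=
    Ideal.finite_quotient_pow (IsNoetherian.noetherian (MM y₀)) n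
  refine ⟨Nat.card (MvPolynomial ↥J O ⧸ MM y₀ ^ n), ?_⟩
  intro K h
  haveI := isLocalRing_quot h.level
  haveI := h.finite
  set β : MvPolynomial ↥J O →ₐ[O] MvPolynomial I O ⧸ K := aeval (fun j : ↥J => famX K j) with hβ
  have hβsurj : Function.Surjective β := by
    have h1 : β.range = ⊤ := by
      rw [hβ, ← Algebra.adjoin_range_eq_range_aeval, ← Set.image_eq_range]
      exact adjoin_eq_top ax hsep h
    intro q
    have : q ∈ β.range := by rw [h1]; exact Algebra.mem_top
    exact this
  have haug : (aug ax.x₀ K h.level.2).comp β = ev0 y₀ := by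
    apply MvPolynomial.algHom_ext
    intro j
    rw [AlgHom.comp_apply, hβ, aeval_X, ev0_X]
    show aug ax.x₀ K h.level.2 (Ideal.Quotient.mk K (X (j : I))) = y₀ j
    rw [aug_mk, ev0_X]
  have hker : MM y₀ ^ n ≤ RingHom.ker (β : MvPolynomial ↥J O →+* MvPolynomial I O ⧸ K) := by
    have h1 : (MM y₀).map (β : MvPolynomial ↥J O →+* MvPolynomial I O ⧸ K) ≤
        maximalIdeal (MvPolynomial I O ⧸ K) := by
      rw [Ideal.map_le_iff_le_comap]
      intro f hf
      rw [Ideal.mem_comap, ← aug_eq_zero_iff h.level]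
      have : aug ax.x₀ K h.level.2 (β f) = ev0 y₀ f := by rw [← haug]; rfl
      rw [RingHom.coe_coe, this]
      exact mem_MM.mp hf
    intro f hf
    rw [RingHom.mem_ker]
    have h2 : (β : MvPolynomial ↥J O →+* MvPolynomial I O ⧸ K) f ∈
        ((MM y₀).map (β : MvPolynomial ↥J O →+* MvPolynomial I O ⧸ K)) ^ n := by
      rw [← Ideal.map_pow]
      exact Ideal.mem_map_of_mem _ hf
    have h3 := Ideal.pow_right_mono h1 n h2
    rw [maximalIdeal_pow_eq_bot h.level] at h3
    exact h3
  have hsurj : Function.Surjective (Ideal.Quotient.lift (MM y₀ ^ n)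
      (β : MvPolynomial ↥J O →+* MvPolynomial I O ⧸ K) (fun f hf => RingHom.mem_ker.mp (hker hf))) := by
    intro q
    obtain ⟨f, rfl⟩ := hβsurj q
    exact ⟨Ideal.Quotient.mk _ f, Ideal.Quotient.lift_mk _ _ _⟩
  exact Nat.card_le_card_of_surjective _ hsurj

end Fermat.Agent.S53.AR
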