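/-
S53, package AT (helper94): good ideals are closed under finite intersections.
-/
import Mathlib
import Fermat.Prelude.Def_GaloisRep_DeformationCondition
import Fermat.Agent.S53.AR.Good

set_option autoImplicit false
set_option linter.style.haveILetI false
set_option linter.unusedSectionVars false
set_option linter.unusedVariables false

namespace Fermat.Agent.S53.AR

open IsLocalRing GaloisRep MvPolynomial

variable {O : Type} [CommRing O] [IsLocalRing O] {I : Type} {F : FamPred O I}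
  (ax : Axioms O I F)

theorem Good.inf {K₁ K₂ : Ideal (MvPolynomial I O)} {n₁ n₂ : ℕ} (h₁ : Good ax K₁ n₁)
    (h₂ : Good ax K₂ n₂) : Good ax (K₁ ⊓ K₂) (max n₁ n₂) := by
  have hlevP : IsLevel ax.x₀ (K₁ ⊓ K₂) (max n₁ n₂) :=
    ⟨le_inf ((Ideal.pow_le_pow_right (le_max_left _ _)).trans h₁.level.1)
      ((Ideal.pow_le_pow_right (le_max_right _ _)).trans h₂.level.1),
      inf_le_left.trans h₁.level.2⟩
  have hlevC : IsLevel ax.x₀ (K₁ ⊔ K₂) n₁ :=
    ⟨h₁.level.1.trans le_sup_left, sup_le h₁.level.2 h₂.level.2⟩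
  haveI := h₁.finite
  haveI := h₂.finite
  let pA := Ideal.Quotient.factorₐ O (inf_le_left : K₁ ⊓ K₂ ≤ K₁)
  let pB := Ideal.Quotient.factorₐ O (inf_le_right : K₁ ⊓ K₂ ≤ K₂)
  let f := Ideal.Quotient.factorₐ O (le_sup_left : K₁ ≤ K₁ ⊔ K₂)
  let g := Ideal.Quotient.factorₐ O (le_sup_right : K₂ ≤ K₁ ⊔ K₂)
  have hinj : Function.Injective (fun x => (pA x, pB x)) := by
    intro q q' hqq'
    obtain ⟨u, rfl⟩ := Ideal.Quotient.mk_surjective q
    obtain ⟨v, rfl⟩ := Ideal.Quotient.mk_surjective q'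
    have h1 : Ideal.Quotient.mk K₁ u = Ideal.Quotient.mk K₁ v := congrArg Prod.fst hqq'
    have h2 : Ideal.Quotient.mk K₂ u = Ideal.Quotient.mk K₂ v := congrArg Prod.snd hqq'
    rw [Ideal.Quotient.eq] at h1 h2 ⊢
    exact ⟨h1, h2⟩
  haveI : Finite (MvPolynomial I O ⧸ (K₁ ⊓ K₂)) := Finite.of_injective _ hinj
  haveI : Finite (MvPolynomial I O ⧸ (K₁ ⊔ K₂)) :=
    Finite.of_surjective _ (Ideal.Quotient.factor_surjective (le_sup_left : K₁ ≤ K₁ ⊔ K₂))
  refine ⟨hlevP, inferInstance, ?_⟩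
  intro _
  haveI := isLocalRing_quot h₁.level
  haveI := isLocalRing_quot h₂.level
  haveI := isLocalRing_quot hlevC
  have hA := isArtinianTestAlgebra_quot h₁.level
  have hB := isArtinianTestAlgebra_quot h₂.level
  have hC := isArtinianTestAlgebra_quot hlevC
  have hP := isArtinianTestAlgebra_quot hlevP
  refine ax.glue hA hB hC hP f g pA pB ?_ hinj ?_ (famX (K₁ ⊓ K₂)) h₁.mem h₂.mem
  · apply AlgHom.ext
    intro q
    obtain ⟨u, rfl⟩ := Ideal.Quotient.mk_surjective q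
    rfl
  · intro a b hab
    obtain ⟨u, rfl⟩ := Ideal.Quotient.mk_surjective a
    obtain ⟨v, rfl⟩ := Ideal.Quotient.mk_surjective b
    have huv : u - v ∈ K₁ ⊔ K₂ := by
      have : Ideal.Quotient.mk (K₁ ⊔ K₂) u = Ideal.Quotient.mk (K₁ ⊔ K₂) v := hab
      exact Ideal.Quotient.eq.mp this
    obtain ⟨k₁, hk₁, k₂, hk₂, hk⟩ := Submodule.mem_sup.mp huv
    refine ⟨Ideal.Quotient.mk (K₁ ⊓ K₂) (u - k₁), ?_, ?_⟩
    · show Ideal.Quotient.mk K₁ (u - k₁) = Ideal.Quotient.mk K₁ u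
      rw [Ideal.Quotient.eq]
      have : u - k₁ - u = -k₁ := by ring
      rw [this]
      exact K₁.neg_mem hk₁
    · show Ideal.Quotient.mk K₂ (u - k₁) = Ideal.Quotient.mk K₂ v
      rw [Ideal.Quotient.eq]
      have : u - k₁ - v = k₂ := by
        have : u - k₁ - v = (u - v) - k₁ := by ring
        rw [this, ← hk]; ring
      rw [this]
      exact hk₂

end Fermat.Agent.S53.AR
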