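/-
S53, package AT (helper94): the tower of least good ideals `KK n` and the finite-level
universal property.
-/
import Mathlib
import Fermat.Prelude.Def_GaloisRep_DeformationCondition
import Fermat.Agent.S53.LeastGood
import Fermat.Agent.S53.AR.Bound
import Fermat.Agent.S53.AR.Inf

set_option autoImplicit false
set_option linter.style.haveILetI false
set_option linter.unusedSectionVars false
set_option linter.unusedVariables false

namespace Fermat.Agent.S53.AR

open IsLocalRing GaloisRep MvPolynomial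

variable {O : Type} [CommRing O] [IsLocalRing O] {I : Type} {F : FamPred O I}

section MaxIdeal

variable {x₀ : I → ResidueField O} {K : Ideal (MvPolynomial I O)} {n : ℕ}

/-- the maximal ideal of a level quotient is the image of `𝔐`. -/
theorem maximalIdeal_quot_eq (hK : IsLevel x₀ K n) [IsLocalRing (MvPolynomial I O ⧸ K)] :
    maximalIdeal (MvPolynomial I O ⧸ K) = (MM x₀).map (Ideal.Quotient.mk K) := by
  ext q
  rw [← aug_eq_zero_iff hK]
  obtain ⟨f, rfl⟩ := Ideal.Quotient.mk_surjective q
  rw [aug_mk, ← mem_MM]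
  constructor
  · intro hf
    exact Ideal.mem_map_of_mem _ hf
  · intro hq
    rw [Ideal.mem_map_iff_of_surjective _ Ideal.Quotient.mk_surjective] at hq
    obtain ⟨g, hg, hgf⟩ := hq
    have h1 : g - f ∈ K := Ideal.Quotient.eq.mp hgf
    have h2 : g - f ∈ MM x₀ := hK.2 h1
    have h3 : f = g - (g - f) := by ring
    rw [h3]
    exact (MM x₀).sub_mem hg h2

end MaxIdeal

/-- every test algebra has a (unique) augmentation to `k`. -/
theorem exists_augmentation {A : Type} [CommRing A] [IsLocalRing A] [Algebra O A]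
    (hA : IsArtinianTestAlgebra O A) :
    ∃ ε : A →ₐ[O] ResidueField O, ∀ a, ε a = 0 ↔ a ∈ maximalIdeal A := by
  haveI := hA.isLocalHom
  set ι : ResidueField O →+* ResidueField A := ResidueField.map (algebraMap O A) with hι
  have hιbij : Function.Bijective ι := by
    refine ⟨ι.injective, ?_⟩
    intro y
    obtain ⟨o, ho⟩ := hA.residue_surjective y
    exact ⟨IsLocalRing.residue O o, by rw [hι, ResidueField.map_residue]; exact ho⟩
  let e : ResidueField O ≃+* ResidueField A := RingEquiv.ofBijective ι hιbij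
  let ε₀ : A →+* ResidueField O := (e.symm : ResidueField A →+* ResidueField O).comp
    (IsLocalRing.residue A)
  have hε₀ : ∀ a, ε₀ a = e.symm (IsLocalRing.residue A a) := fun a => rfl
  refine ⟨{ ε₀ with commutes' := ?_ }, ?_⟩
  · intro o
    show ε₀ (algebraMap O A o) = algebraMap O (ResidueField O) o
    rw [hε₀, RingEquiv.symm_apply_eq, IsLocalRing.ResidueField.algebraMap_eq]
    show _ = ι (IsLocalRing.residue O o)
    rw [hι, ResidueField.map_residue]
  · intro a
    show ε₀ a = 0 ↔ _
    rw [hε₀, RingEquiv.map_eq_zero_iff, IsLocalRing.residue_eq_zero_iff]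

variable (ax : Axioms O I F) [Finite (ResidueField O)]

/-- `K` is good (of some level). -/
def IsGood (K : Ideal (MvPolynomial I O)) : Prop := ∃ n, Good ax K n

/-- the maximal ideal `𝔐` itself is good. -/
theorem good_MM : Good ax (MM ax.x₀) 1 := by
  have h := good_ker ax (isArtinianTestAlgebra_residueField (O := O)) (AlgHom.id O _)
    (fun a => by
      rw [IsLocalRing.maximalIdeal_eq_bot, Ideal.mem_bot]; rfl) (n := 1)
    (by rw [IsLocalRing.maximalIdeal_eq_bot, pow_one]) ax.x₀ ax.F_x₀
  exact h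

/-- the kernel of the evaluation at a point of `F A` is good. -/
theorem isGood_ker {A : Type} [CommRing A] [IsLocalRing A] [Algebra O A]
    (hA : IsArtinianTestAlgebra O A) {n : ℕ} (hn : maximalIdeal A ^ n = ⊥)
    (x : I → A) (hx : F A x) : Good ax (RingHom.ker (aeval x : MvPolynomial I O →ₐ[O] A)) n := by
  obtain ⟨ε, hε⟩ := exists_augmentation hA
  exact good_ker ax hA ε hε hn x hx

variable [IsNoetherianRing O]

/-- good ideals form a good family in the sense of `LeastGood`. -/
theorem goodFamily : LeastGood.GoodFamily (MM ax.x₀) (IsGood ax) where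
  inf := fun K K' ⟨n, h⟩ ⟨n', h'⟩ => ⟨_, h.inf ax h'⟩
  up := fun K K' ⟨n, h⟩ hKK' hK' => ⟨n, h.mono ax hKK' hK'⟩
  le := fun K ⟨n, h⟩ => h.level.2
  base := ⟨1, good_MM ax⟩
  finite := fun K ⟨n, h⟩ => h.finite
  bound := fun n => by
    obtain ⟨C, hC⟩ := exists_card_bound ax (n + 1)
    refine ⟨C, ?_⟩
    rintro K ⟨m, h⟩ hK
    exact hC K ⟨⟨hK, h.level.2⟩, h.finite, h.mem⟩

/-- the least good ideal containing `𝔐 ^ (n+1)`. -/
noncomputable def KK (n : ℕ) : Ideal (MvPolynomial I O) := LeastGood.level (goodFamily ax) n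

theorem KK_good (n : ℕ) : Good ax (KK ax n) (n + 1) := by
  obtain ⟨m, h⟩ := LeastGood.level_good (goodFamily ax) n
  have h' : Good ax (KK ax n) m := h
  exact ⟨⟨LeastGood.pow_le_level (goodFamily ax) n, h'.level.2⟩, h'.finite, h'.mem⟩

theorem KK_level (n : ℕ) : IsLevel ax.x₀ (KK ax n) (n + 1) := (KK_good ax n).level

theorem KK_le {K : Ideal (MvPolynomial I O)} {m n : ℕ} (h : Good ax K m) (hmn : m ≤ n + 1) :
    KK ax n ≤ K :=
  LeastGood.level_le (goodFamily ax) n ⟨m, h⟩ ((Ideal.pow_le_pow_right hmn).trans h.level.1)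

theorem KK_succ_le (n : ℕ) : KK ax (n + 1) ≤ KK ax n := LeastGood.level_succ_le (goodFamily ax) n

theorem KK_step (n : ℕ) : KK ax n = KK ax (n + 1) ⊔ MM ax.x₀ ^ (n + 1) :=
  LeastGood.level_step (goodFamily ax) n

instance KK_isLocalRing (n : ℕ) : IsLocalRing (MvPolynomial I O ⧸ KK ax n) :=
  isLocalRing_quot (KK_level ax n)

instance KK_finite (n : ℕ) : Finite (MvPolynomial I O ⧸ KK ax n) := (KK_good ax n).finite

theorem KK_testAlgebra (n : ℕ) : IsArtinianTestAlgebra O (MvPolynomial I O ⧸ KK ax n) :=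
  isArtinianTestAlgebra_quot (KK_level ax n)

theorem KK_mem (n : ℕ) : F (MvPolynomial I O ⧸ KK ax n) (famX (KK ax n)) := (KK_good ax n).mem

/-- the transition maps of the tower. -/
noncomputable def trans (n : ℕ) :
    (MvPolynomial I O ⧸ KK ax (n + 1)) →ₐ[O] (MvPolynomial I O ⧸ KK ax n) :=
  Ideal.Quotient.factorₐ O (KK_succ_le ax n)

theorem trans_mk (n : ℕ) (f : MvPolynomial I O) :
    trans ax n (Ideal.Quotient.mk _ f) = Ideal.Quotient.mk _ f := rfl

theorem trans_surjective (n : ℕ) : Function.Surjective (trans ax n) :=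
  Ideal.Quotient.factor_surjective (KK_succ_le ax n)

theorem trans_famX (n : ℕ) (i : I) : trans ax n (famX (KK ax (n + 1)) i) = famX (KK ax n) i := rfl

theorem KK_pow_eq_bot (n : ℕ) : maximalIdeal (MvPolynomial I O ⧸ KK ax n) ^ (n + 1) = ⊥ :=
  maximalIdeal_pow_eq_bot (KK_level ax n)

theorem ker_trans (n : ℕ) :
    RingHom.ker (trans ax n) = maximalIdeal (MvPolynomial I O ⧸ KK ax (n + 1)) ^ (n + 1) := by
  have h1 : RingHom.ker (trans ax n) =
      (KK ax n).map (Ideal.Quotient.mk (KK ax (n + 1))) :=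
    Ideal.Quotient.factor_ker (KK_succ_le ax n)
  rw [h1, maximalIdeal_quot_eq (KK_level ax (n + 1)), ← Ideal.map_pow]
  conv_lhs => rw [KK_step ax n]
  rw [Ideal.map_sup, Ideal.map_quotient_self, bot_sup_eq]

/-- **Finite level universal property**: every point of `F` over a test algebra `A` with
`𝔪_A ^ (n+1) = 0` comes from a unique map `Λ ⧸ KK n → A`. -/
theorem existsUnique_level {A : Type} [CommRing A] [IsLocalRing A] [Algebra O A]
    (hA : IsArtinianTestAlgebra O A) {n : ℕ} (hn : maximalIdeal A ^ (n + 1) = ⊥)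
    (x : I → A) (hx : F A x) :
    ∃! φ : (MvPolynomial I O ⧸ KK ax n) →ₐ[O] A, ∀ i, φ (famX (KK ax n) i) = x i := by
  have hgood := isGood_ker ax hA hn x hx
  have hle : KK ax n ≤ RingHom.ker (aeval x : MvPolynomial I O →ₐ[O] A) :=
    KK_le ax hgood le_rfl
  refine ⟨Ideal.Quotient.liftₐ (KK ax n) (aeval x) (fun a ha => RingHom.mem_ker.mp (hle ha)),
    ?_, ?_⟩
  · intro i
    show aeval x (X i : MvPolynomial I O) = x i
    simp
  · intro ψ hψ
    apply Ideal.Quotient.algHom_ext
    apply MvPolynomial.algHom_ext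
    intro i
    rw [AlgHom.comp_apply, AlgHom.comp_apply]
    show ψ (famX (KK ax n) i) = aeval x (X i : MvPolynomial I O)
    rw [hψ i]
    simp

end Fermat.Agent.S53.AR
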