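/-
S53, package AT (helper94): the universal property of the limit of the tower, and the
abstract representability theorem in the shape of helper90's `Skeleton90.abstract_rep`.
-/
import Mathlib
import Fermat.Prelude.Def_GaloisRep_DeformationCondition
import Fermat.Agent.S53.TowerLimit
import Fermat.Agent.S53.AR.Tower

set_option autoImplicit false
set_option linter.style.haveILetI false
set_option linter.unusedSectionVars false
set_option linter.unusedVariables false

namespace Fermat.Agent.S53.AR

open IsLocalRing GaloisRep MvPolynomial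

variable {O : Type} [CommRing O] [IsLocalRing O] {I : Type} {F : FamPred O I}

section Local

variable {R B : Type} [CommRing R] [IsLocalRing R] [Algebra O R]
  [CommRing B] [IsLocalRing B] [Algebra O B]

/-- every `O`-algebra map from a local `O`-algebra to a test algebra is local. -/
theorem map_mem_maximalIdeal (hB : IsArtinianTestAlgebra O B) (q : R →ₐ[O] B)
    {r : R} (hr : r ∈ maximalIdeal R) : q r ∈ maximalIdeal B := by
  obtain ⟨ε, hε⟩ := exists_augmentation hB
  have hsurj : Function.Surjective ((ε.comp q : R →ₐ[O] ResidueField O) : R →+* ResidueField O) := by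
    intro y
    obtain ⟨o, rfl⟩ := IsLocalRing.residue_surjective y
    refine ⟨algebraMap O R o, ?_⟩
    rw [RingHom.coe_coe, AlgHom.commutes, IsLocalRing.ResidueField.algebraMap_eq]
  have hmax := RingHom.ker_isMaximal_of_surjective _ hsurj
  have heq := IsLocalRing.eq_maximalIdeal hmax
  rw [← hε]
  have h1 : r ∈ RingHom.ker ((ε.comp q : R →ₐ[O] ResidueField O) : R →+* ResidueField O) := by
    rw [heq]; exact hr
  exact h1

/-- an `O`-algebra map to a test algebra with `𝔪_B ^ n = 0` kills `𝔪_R ^ n`. -/
theorem map_eq_zero_of_mem_pow (hB : IsArtinianTestAlgebra O B) (q : R →ₐ[O] B) {n : ℕ}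
    (hn : maximalIdeal B ^ n = ⊥) {r : R} (hr : r ∈ maximalIdeal R ^ n) : q r = 0 := by
  have h1 : (maximalIdeal R).map (q : R →+* B) ≤ maximalIdeal B := by
    rw [Ideal.map_le_iff_le_comap]
    intro s hs
    exact map_mem_maximalIdeal hB q hs
  have h2 : (q : R →+* B) r ∈ ((maximalIdeal R).map (q : R →+* B)) ^ n := by
    rw [← Ideal.map_pow]
    exact Ideal.mem_map_of_mem _ hr
  have h3 := Ideal.pow_right_mono h1 n h2
  rw [hn] at h3
  exact h3

end Local

variable (ax : Axioms O I F) [Finite (ResidueField O)] [IsNoetherianRing O]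

section Generic

variable {R : Type} [CommRing R] [IsLocalRing R] [Algebra O R]
  (pr : ∀ n, R →ₐ[O] (MvPolynomial I O ⧸ KK ax n))
  (hker : ∀ n, RingHom.ker (pr n) = maximalIdeal R ^ (n + 1))
  (xR : I → R) (hxR : ∀ n i, pr n (xR i) = famX (KK ax n) i)

include hker hxR in
/-- maps out of `R` to a test algebra are determined by the images of the `xR i`. -/
theorem apply_eq_aeval {B : Type} [CommRing B] [IsLocalRing B] [Algebra O B]
    (hB : IsArtinianTestAlgebra O B) {n : ℕ} (hn : maximalIdeal B ^ (n + 1) = ⊥)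
    (φ : R →ₐ[O] B) (r : R) (f : MvPolynomial I O) (hrf : pr n r = Ideal.Quotient.mk _ f) :
    φ r = aeval (fun i => φ (xR i)) f := by
  have h1 : pr n (aeval xR f) = Ideal.Quotient.mk _ f := by
    rw [comp_aeval_apply]
    have h2 : (fun i => pr n (xR i)) = fun i => Ideal.Quotient.mkₐ O (KK ax n) (X i) := by
      funext i
      rw [hxR n i]
      rfl
    rw [h2, ← comp_aeval_apply, aeval_X_left_apply]
    rfl
  have h3 : r - aeval xR f ∈ maximalIdeal R ^ (n + 1) := by
    rw [← hker n, RingHom.mem_ker, map_sub, hrf, h1, sub_self]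
  have h4 := map_eq_zero_of_mem_pow hB φ hn h3
  rw [map_sub, sub_eq_zero] at h4
  rw [h4, comp_aeval_apply]

include hker hxR in
/-- the universal property of the limit of the tower. -/
theorem universal_of_limit :
    (∀ {B : Type} [CommRing B] [IsLocalRing B] [Algebra O B], IsArtinianTestAlgebra O B →
        ∀ q : R →ₐ[O] B, F B (fun i => q (xR i))) ∧
    (∀ {B : Type} [CommRing B] [IsLocalRing B] [Algebra O B], IsArtinianTestAlgebra O B →
        ∀ x : I → B, F B x → ∃! φ : R →ₐ[O] B, (fun i => φ (xR i)) = x) := by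
  constructor
  · intro B _ _ _ hB q
    obtain ⟨m, hm⟩ := exists_maximalIdeal_pow_eq_bot hB
    have hn : maximalIdeal B ^ (m + 1) = ⊥ := by rw [pow_succ, hm, Ideal.bot_mul]
    have hle : ∀ f ∈ KK ax m, (aeval (fun i => q (xR i)) : MvPolynomial I O →ₐ[O] B) f = 0 := by
      intro f hf
      have h1 := apply_eq_aeval ax pr hker xR hxR hB hn q 0 f (by
        rw [map_zero]
        exact (Ideal.Quotient.eq_zero_iff_mem.mpr hf).symm)
      rw [← h1, map_zero]
    have h2 := ax.map (KK_testAlgebra ax m) hB
      (Ideal.Quotient.liftₐ (KK ax m) (aeval (fun i => q (xR i))) hle) (famX (KK ax m)) (KK_mem ax m)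
    have h3 : (fun i => Ideal.Quotient.liftₐ (KK ax m) (aeval (fun i => q (xR i))) hle
        (famX (KK ax m) i)) = fun i => q (xR i) := by
      funext i
      show aeval (fun i => q (xR i)) (X i : MvPolynomial I O) = q (xR i)
      simp
    rw [h3] at h2
    exact h2
  · intro B _ _ _ hB x hx
    obtain ⟨m, hm⟩ := exists_maximalIdeal_pow_eq_bot hB
    have hn : maximalIdeal B ^ (m + 1) = ⊥ := by rw [pow_succ, hm, Ideal.bot_mul]
    obtain ⟨ψ, hψ, -⟩ := existsUnique_level ax hB hn x hx
    refine ⟨ψ.comp (pr m), ?_, ?_⟩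
    · funext i
      rw [AlgHom.comp_apply, hxR m i, hψ i]
    · intro φ hφ
      have hφ' : (fun i => (ψ.comp (pr m)) (xR i)) = x := by
        funext i
        rw [AlgHom.comp_apply, hxR m i, hψ i]
      apply AlgHom.ext
      intro r
      obtain ⟨f, hf⟩ := Ideal.Quotient.mk_surjective (pr m r)
      rw [apply_eq_aeval ax pr hker xR hxR hB hn φ r f hf.symm,
        apply_eq_aeval ax pr hker xR hxR hB hn (ψ.comp (pr m)) r f hf.symm, hφ, hφ']

end Generic

end Fermat.Agent.S53.AR
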