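/-
S53, package AT (helper94): the abstract representability theorem, in the exact shape of
helper90's `Skeleton90.abstract_rep`.
-/
import Mathlib
import Fermat.Prelude.Def_GaloisRep_DeformationCondition
import Fermat.Agent.S53.TowerLimit
import Fermat.Agent.S53.AR.Univ

set_option autoImplicit false
set_option linter.style.haveILetI false
set_option linter.unusedSectionVars false
set_option linter.unusedVariables false

namespace Fermat.Agent.S53.AR

open IsLocalRing GaloisRep MvPolynomial

section Tower

variable {O : Type} [CommRing O] [IsLocalRing O] {I : Type} {F : FamPred O I}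
variable (ax : Axioms O I F) [Finite (ResidueField O)] [IsNoetherianRing O]

/-- the levels of the tower. -/
abbrev TA (n : ℕ) : Type := MvPolynomial I O ⧸ KK ax n

/-- the bottom level is a quotient of `O`. -/
theorem algebraMap_TA_zero_surjective : Function.Surjective (algebraMap O (TA ax 0)) := by
  intro q
  obtain ⟨o, ho⟩ := (KK_testAlgebra ax 0).residue_surjective (IsLocalRing.residue _ q)
  refine ⟨o, ?_⟩
  rw [Function.comp_apply, ← sub_eq_zero, ← map_sub, IsLocalRing.residue_eq_zero_iff] at ho
  have h1 := KK_pow_eq_bot ax 0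
  rw [zero_add, pow_one] at h1
  rw [h1, Ideal.mem_bot, sub_eq_zero] at ho
  exact ho

/-- the universal ring. -/
abbrev RR : Type := ↥(limRing (TA ax) (trans ax))

/-- the universal family. -/
noncomputable def xRR (i : I) : RR ax :=
  limRing.mk (TA ax) (trans ax) (fun n => famX (KK ax n) i) (fun n => trans_famX ax n i)

theorem proj_xRR (n : ℕ) (i : I) : proj (TA ax) (trans ax) n (xRR ax i) = famX (KK ax n) i := rfl

end Tower

/-- **Abstract representability.** -/
theorem abstract_rep (O : Type) [CommRing O] [IsLocalRing O] [IsNoetherianRing O]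
    [Finite (ResidueField O)] (I : Type)
    (F : ∀ ⦃A : Type⦄ [CommRing A] [IsLocalRing A] [Algebra O A], (I → A) → Prop)
    (hmap : ∀ ⦃A B : Type⦄ [CommRing A] [IsLocalRing A] [Algebra O A]
      [CommRing B] [IsLocalRing B] [Algebra O B],
      IsArtinianTestAlgebra O A → IsArtinianTestAlgebra O B →
      ∀ (φ : A →ₐ[O] B) (x : I → A), F x → F (φ ∘ x))
    (hinj : ∀ ⦃A B : Type⦄ [CommRing A] [IsLocalRing A] [Algebra O A]
      [CommRing B] [IsLocalRing B] [Algebra O B],
      IsArtinianTestAlgebra O A → IsArtinianTestAlgebra O B →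
      ∀ (φ : A →ₐ[O] B), Function.Injective φ → ∀ (x : I → A), F (φ ∘ x) → F x)
    (hfib : ∀ ⦃A B C P : Type⦄ [CommRing A] [IsLocalRing A] [Algebra O A]
      [CommRing B] [IsLocalRing B] [Algebra O B] [CommRing C] [IsLocalRing C] [Algebra O C]
      [CommRing P] [IsLocalRing P] [Algebra O P],
      IsArtinianTestAlgebra O A → IsArtinianTestAlgebra O B →
      IsArtinianTestAlgebra O C → IsArtinianTestAlgebra O P →
      ∀ (f : A →ₐ[O] C) (g : B →ₐ[O] C) (pA : P →ₐ[O] A) (pB : P →ₐ[O] B),
        f.comp pA = g.comp pB →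
        Function.Injective (fun x => (pA x, pB x)) →
        (∀ a b, f a = g b → ∃ x, pA x = a ∧ pB x = b) →
        ∀ (x : I → P), F (pA ∘ x) → F (pB ∘ x) → F x)
    (hk : ∃! x : I → ResidueField O, F x)
    (hfin : letI := dualAlgebra O
      Finite {x : I → DualNumber (ResidueField O) // F x}) :
    ∃ (R : Type) (_ : CommRing R) (_ : IsLocalRing R) (_ : IsNoetherianRing R)
      (_ : IsAdicComplete (maximalIdeal R) R) (_ : Algebra O R)
      (_ : IsLocalHom (algebraMap O R)) (xR : I → R),
      Function.Surjective (IsLocalRing.residue R ∘ algebraMap O R) ∧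
      (∀ ⦃B : Type⦄ [CommRing B] [IsLocalRing B] [Algebra O B],
        IsArtinianTestAlgebra O B → ∀ q : R →ₐ[O] B, F (q ∘ xR)) ∧
      (∀ ⦃B : Type⦄ [CommRing B] [IsLocalRing B] [Algebra O B],
        IsArtinianTestAlgebra O B → ∀ x : I → B, F x →
          ∃! φ : R →ₐ[O] B, φ ∘ xR = x) := by
  let F' : FamPred O I := fun A _ _ _ x => @F A _ _ _ x
  have ax : Axioms O I F' :=
    { map := fun hA hB φ x hx => hmap hA hB φ x hx
      descent := fun hA hB φ hφ x hx => hinj hA hB φ hφ x hx
      glue := fun hA hB hC hP f g pA pB hcomp hi hs x h1 h2 =>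
        hfib hA hB hC hP f g pA pB hcomp hi hs x h1 h2
      base_exists := hk.exists
      base_unique := fun x y hx hy => hk.unique hx hy
      tangent_finite := hfin }
  have hf := trans_surjective ax
  have hker := ker_trans ax
  have hpow := KK_pow_eq_bot ax
  have hO := algebraMap_TA_zero_surjective ax
  haveI hloc : IsLocalRing (RR ax) := isLocalRing_limRing (TA ax) (trans ax) hf hpow
  have hkp := ker_proj (TA ax) (trans ax) hf hker hpow
  obtain ⟨h1, h2⟩ := universal_of_limit ax (proj (TA ax) (trans ax)) hkp (xRR ax) (proj_xRR ax)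
  refine ⟨RR ax, inferInstance, hloc,
    isNoetherianRing_limRing (TA ax) (trans ax) hf hker hpow hO,
    isAdicComplete_limRing (TA ax) (trans ax) hf hker hpow, inferInstance,
    isLocalHom_algebraMap_limRing (TA ax) (trans ax) (KK_testAlgebra ax 0).isLocalHom,
    xRR ax,
    residue_comp_algebraMap_surjective (TA ax) (trans ax) hf hpow hO, ?_, ?_⟩
  · intro B _ _ _ hB q
    exact h1 hB q
  · intro B _ _ _ hB x hx
    exact h2 hB x hx

end Fermat.Agent.S53.AR
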